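import Mathlib

/-!
# Row S15, piece DESC-ALG (helper302): the commutative algebra of the Eisenstein descent

* `exists_ne_zero_smul_eq_zero_of_smul_ne` : a finite module `N` over a commutative ring with
  `P • N ≠ N` contains a non-zero element killed by the ideal `P`.
* `exists_sub_one_mem_smul_eq_zero_of_socle` (ALG1): `M` a finitely generated abelian group with
  an action of a commutative ring `R`, `P` an ideal containing `r > 0`; if `(M / r M)[P] = 0`
  then some `t ∈ 1 + P` kills `M`.

Mathlib only; no `sorry`.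
-/

set_option autoImplicit false

namespace Fermat.Agent.S15.H302

open Submodule

/-- A finite module `N` with `P • N ≠ N` has a non-zero element killed by `P`
(strong induction on the cardinality; no maximality or noetherian hypothesis). -/
theorem exists_ne_zero_smul_eq_zero_of_smul_ne {R X : Type*} [CommRing R] [AddCommGroup X]
    [Module R X] [Finite X] (P : Ideal R) :
    ∀ (n : ℕ) (N : Submodule R X), (N : Set X).ncard = n → P • N ≠ N →
      ∃ x ∈ N, x ≠ 0 ∧ ∀ s ∈ P, s • x = 0 := by
  intro n
  induction n using Nat.strong_induction_on with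
  | _ n ih =>
    intro N hN hne
    by_cases hall : ∀ s ∈ P, ∀ x ∈ N, s • x = 0
    · -- `P` kills `N`; `N ≠ ⊥` since `P • ⊥ = ⊥`
      have hbot : N ≠ ⊥ := by
        rintro rfl
        exact hne (by simp)
      obtain ⟨x, hx, hx0⟩ := (Submodule.ne_bot_iff N).1 hbot
      exact ⟨x, hx, hx0, fun s hs => hall s hs x hx⟩
    · push Not at hall
      obtain ⟨s, hs, x₀, hx₀, hsx₀⟩ := hall
      set f : X →ₗ[R] X := LinearMap.lsmul R X s with hf
      have hfx : ∀ x, f x = s • x := fun x => rfl
      -- the kernel part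
      set K : Submodule R X := N ⊓ LinearMap.ker f with hK
      have hKN : K ≤ N := inf_le_left
      have hKlt : (K : Set X) ⊂ (N : Set X) := by
        refine ⟨hKN, fun h => ?_⟩
        have : x₀ ∈ K := h hx₀
        exact hsx₀ (by simpa [hfx] using this.2)
      have hKcard : (K : Set X).ncard < n := by
        rw [← hN]
        exact Set.ncard_lt_ncard hKlt (Set.toFinite _)
      by_cases hPK : P • K = K
      swap
      · obtain ⟨x, hx, hx0, hxP⟩ := ih _ hKcard K rfl hPK
        exact ⟨x, hKN hx, hx0, hxP⟩
      -- the image part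
      set I : Submodule R X := N.map f with hI
      have hIPN : I ≤ P • N := by
        rintro _ ⟨x, hx, rfl⟩
        exact Submodule.smul_mem_smul hs hx
      have hPN : P • N ≤ N := Submodule.smul_le.2 fun a _ x hx => N.smul_mem a hx
      have hIN : I ≤ N := hIPN.trans hPN
      have hIlt : (I : Set X) ⊂ (N : Set X) := by
        refine ⟨hIN, fun h => ?_⟩
        exact hne (le_antisymm hPN (fun x hx => hIPN (h hx)))
      have hIcard : (I : Set X).ncard < n := by
        rw [← hN]
        exact Set.ncard_lt_ncard hIlt (Set.toFinite _)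
      by_cases hPI : P • I = I
      swap
      · obtain ⟨x, hx, hx0, hxP⟩ := ih _ hIcard I rfl hPI
        exact ⟨x, hIN hx, hx0, hxP⟩
      -- both `K` and `I` are `P`-divisible: then so is `N`, contradiction
      exfalso
      refine hne (le_antisymm hPN fun x hx => ?_)
      have h1 : f x ∈ (P • N).map f := by
        rw [Submodule.map_smul'', hPI]
        exact ⟨x, hx, rfl⟩
      obtain ⟨y, hy, hyx⟩ := h1
      have h2 : x - y ∈ K := by
        refine ⟨N.sub_mem hx (hPN hy), ?_⟩
        show x - y ∈ LinearMap.ker f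
        rw [LinearMap.mem_ker, map_sub, hyx, sub_self]
      have h3 : x - y ∈ P • N := by
        rw [← hPK] at h2
        exact (Submodule.smul_le.2 fun a ha k hk =>
          Submodule.smul_mem_smul ha (hKN hk)) h2
      have := (P • N).add_mem h3 hy
      simpa using this

/-- **ALG1.**  `M` a finitely generated abelian group with an action of a commutative ring `R`,
`P` an ideal of `R` containing the integer `r > 0`.  If every `z ∈ M` with `P z ⊆ r M` lies in
`r M` (i.e. `(M / r M)[P] = 0`), then there is `t ∈ 1 + P` with `t M = 0`. -/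
theorem exists_sub_one_mem_smul_eq_zero_of_socle {R M : Type*} [CommRing R] [AddCommGroup M]
    [Module R M] [Module.Finite ℤ M] (P : Ideal R) (r : ℕ) (hr : 0 < r) (hrP : (r : R) ∈ P)
    (h : ∀ z : M, (∀ s ∈ P, ∃ w : M, s • z = r • w) → ∃ w : M, z = r • w) :
    ∃ t : R, t - 1 ∈ P ∧ ∀ z : M, t • z = 0 := by
  classical
  -- the submodule `r M`
  set Nr : Submodule R M := LinearMap.range (LinearMap.lsmul R M (r : R)) with hNr
  have hmemNr : ∀ z : M, z ∈ Nr ↔ ∃ w : M, z = r • w := by
    intro z
    constructor
    · rintro ⟨w, rfl⟩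
      exact ⟨w, by simp [Nat.cast_smul_eq_nsmul]⟩
    · rintro ⟨w, rfl⟩
      exact ⟨w, by simp [Nat.cast_smul_eq_nsmul]⟩
  -- `X = M / r M` is finite
  have : Module.Finite ℤ (M ⧸ Nr) :=
    Module.Finite.of_surjective ((Nr.mkQ).restrictScalars ℤ) (Submodule.mkQ_surjective Nr)
  have htors : Module.IsTorsion ℤ (M ⧸ Nr) := by
    intro x
    obtain ⟨z, rfl⟩ := Submodule.mkQ_surjective Nr x
    refine ⟨⟨(r : ℤ), ?_⟩, ?_⟩
    · rw [mem_nonZeroDivisors_iff_ne_zero]
      exact_mod_cast hr.ne'
    · show (r : ℤ) • Nr.mkQ z = 0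
      rw [← map_zsmul, Submodule.mkQ_apply, Submodule.Quotient.mk_eq_zero, hmemNr]
      exact ⟨z, by simp⟩
  have : Finite (M ⧸ Nr) := Module.finite_of_fg_torsion _ htors
  -- `P • X = X`
  have hPX : P • (⊤ : Submodule R (M ⧸ Nr)) = ⊤ := by
    by_contra hne
    obtain ⟨x, -, hx0, hxP⟩ :=
      exists_ne_zero_smul_eq_zero_of_smul_ne P _ (⊤ : Submodule R (M ⧸ Nr)) rfl hne
    obtain ⟨z, rfl⟩ := Submodule.mkQ_surjective Nr x
    apply hx0
    rw [Submodule.mkQ_apply, Submodule.Quotient.mk_eq_zero, hmemNr]
    refine h z fun s hs => ?_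
    have := hxP s hs
    rw [← map_smul, Submodule.mkQ_apply, Submodule.Quotient.mk_eq_zero, hmemNr] at this
    exact this
  -- `M = P M`
  have hle : (⊤ : Submodule R M) ≤ P • (⊤ : Submodule R M) := by
    intro z _
    have h1 : Nr.mkQ z ∈ (P • (⊤ : Submodule R M)).map Nr.mkQ := by
      rw [Submodule.map_smul'', Submodule.map_top, Submodule.range_mkQ, hPX]
      exact Submodule.mem_top
    obtain ⟨y, hy, hyz⟩ := h1
    have h2 : z - y ∈ Nr := by
      rw [← Submodule.Quotient.mk_eq_zero, Submodule.Quotient.mk_sub]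
      simp only [Submodule.mkQ_apply] at hyz
      rw [hyz, sub_self]
    obtain ⟨w, hw⟩ := h2
    have h3 : z - y ∈ P • (⊤ : Submodule R M) := by
      rw [← hw]
      exact Submodule.smul_mem_smul hrP Submodule.mem_top
    have := (P • (⊤ : Submodule R M)).add_mem h3 hy
    simpa using this
  have : Module.Finite R M := Module.Finite.of_restrictScalars_finite ℤ R M
  obtain ⟨t, ht, htM⟩ := Submodule.exists_sub_one_mem_and_smul_eq_zero_of_fg_of_le_smul P
    (⊤ : Submodule R M) Module.Finite.fg_top hle
  exact ⟨t, ht, fun z => htM z Submodule.mem_top⟩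

end Fermat.Agent.S15.H302
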