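import Mathlib
import Fermat.Agent.S15.Core.Top
import Fermat.Agent.S15.H302.Nakayama
import Fermat.Agent.S29.M1
import Fermat.Agent.S29.H571.HeckeGalois

/-!
# Row S15, piece DESC-ALG (helper302): `DescentStatement p` from the descent core

`descentStatement_of_descCore` : the node `Core.DescentStatement p` (the wall of row S15) follows
from

* Mordell–Weil for `J₀(p)` (the frozen statement S17, as a hypothesis), and
* the **descent core** `DescCoreAt p S r` at ONE prime `r ∣ n = eisensteinNumerator p` :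
  a rational point `z` of `J₀(p)` with `T_ℓ z ≡ (1 + ℓ) z` modulo `r J₀(p)(ℚ) + torsion` for all
  primes `ℓ ∉ S ∪ {p}` lies in `r J₀(p)(ℚ) + torsion`
  (i.e. `(M / r M)[𝔓] = 0` for `M = J₀(p)(ℚ) / torsion`, `𝔓 = (r, T_ℓ - 1 - ℓ)`).

Inputs from main: commutativity of the Hecke operators (`S29.heckeOperatorsCommuteBar`, helper801)
and their Galois-equivariance (`S29.H571.heckeEvalBar_smul`, helper571).
The algebra is `H302.exists_sub_one_mem_smul_eq_zero_of_socle` (Nakayama).  No `sorry`.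
-/

set_option autoImplicit false

noncomputable section

namespace Fermat.Agent.S15.H302

open ModularCurve Fermat.Agent.S15.Core

/-- the absolute Galois group of `ℚ` -/
abbrev GalQ : Type := AlgebraicClosure ℚ ≃ₐ[ℚ] AlgebraicClosure ℚ

/-- `z ≡ z'` modulo `r J₀(p)(ℚ) + J₀(p)(ℚ)_tors`. -/
def CongModRTors (p : ℕ) [NeZero p] (r : ℕ) (z z' : JZero p) : Prop :=
  ∃ w : JZero p, (∀ σ : GalQ, σ • w = w) ∧ ∃ m : ℕ, 0 < m ∧ m • (z - z' - r • w) = 0

/-- **The descent core at the prime `r`** (node DESC-CORE): a rational point which is Eisenstein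
modulo `r J₀(p)(ℚ) + torsion` lies in `r J₀(p)(ℚ) + torsion`. -/
def DescCoreAt (p : ℕ) [NeZero p] (S : Set ℕ) (r : ℕ) : Prop :=
  ∀ z : JZero p, (∀ σ : GalQ, σ • z = z) →
    (∀ ℓ : Nat.Primes, (ℓ : ℕ) ≠ p → (ℓ : ℕ) ∉ S →
      CongModRTors p r (heckeOperatorBar p ℓ z) ((1 + (ℓ : ℕ) : ℕ) • z)) →
    CongModRTors p r z 0

section Good

variable (p : ℕ) [NeZero p] (S : Set ℕ)

/-- the good primes: `ℓ ≠ p`, `ℓ ∉ S` -/
abbrev GoodPrime : Type := {ℓ : Nat.Primes // (ℓ : ℕ) ≠ p ∧ (ℓ : ℕ) ∉ S}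

/-- the polynomial ring on the good Hecke operators -/
abbrev GoodAlg : Type := MvPolynomial (GoodPrime p S) ℤ

/-- the action of the good polynomial ring on `J₀(p)(ℚ̄)` -/
def goodEval : GoodAlg p S →+* Module.End ℤ (JZero p) :=
  (heckeEvalBar (Fermat.Agent.S29.heckeOperatorsCommuteBar p)).comp
    (MvPolynomial.rename (Subtype.val : GoodPrime p S → Nat.Primes)).toRingHom

theorem goodEval_C (a : ℤ) : goodEval p S (MvPolynomial.C a) = (a : Module.End ℤ (JZero p)) := by
  show heckeEvalBar _ (MvPolynomial.rename _ (MvPolynomial.C a)) = _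
  rw [MvPolynomial.rename_C, heckeEvalBar_C]

theorem goodEval_X (ℓ : GoodPrime p S) :
    goodEval p S (MvPolynomial.X ℓ) = heckeOperatorBar p ℓ.1 := by
  show heckeEvalBar _ (MvPolynomial.rename _ (MvPolynomial.X ℓ)) = _
  rw [MvPolynomial.rename_X]
  exact heckeEvalBar_heckeGen _ ℓ.1

theorem goodEval_mem (t : GoodAlg p S) : goodEval p S t ∈ goodHeckeAlg p S := by
  induction t using MvPolynomial.induction_on with
  | C a =>
    rw [goodEval_C]
    exact intCast_mem _ a
  | add u v hu hv =>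
    rw [map_add]
    exact add_mem hu hv
  | mul_X u ℓ hu =>
    rw [map_mul, goodEval_X]
    exact mul_mem hu (Algebra.subset_adjoin ⟨ℓ.1, ℓ.2.1, ℓ.2.2, rfl⟩)

theorem goodEval_galois (t : GoodAlg p S) (σ : GalQ) (x : JZero p) :
    goodEval p S t (σ • x) = σ • goodEval p S t x :=
  Fermat.Agent.S29.H571.heckeEvalBar_smul p _ _ σ x

/-- the Eisenstein character `T_ℓ ↦ 1 + ℓ` -/
def eisChar : GoodAlg p S →+* ℤ :=
  MvPolynomial.eval fun ℓ : GoodPrime p S => ((1 + (ℓ.1 : ℕ) : ℕ) : ℤ)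

variable {p}

theorem goodEval_eisenstein {c : JZero p} (hc : IsEisensteinClass c) (t : GoodAlg p S) :
    goodEval p S t c = eisChar p S t • c := by
  induction t using MvPolynomial.induction_on with
  | C a =>
    rw [goodEval_C, Module.End.intCast_apply]
    simp [eisChar]
  | add u v hu hv =>
    rw [map_add, LinearMap.add_apply, hu, hv, map_add]
    exact (add_smul _ _ _).symm
  | mul_X u ℓ hu =>
    rw [map_mul, Module.End.mul_apply, goodEval_X, hc ℓ.1 ℓ.2.1, map_zsmul, hu, map_mul,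
      smul_smul]
    congr 1
    simp [eisChar, mul_comm]

end Good

/-- The Nakayama step: from the descent core, a good Hecke operator `t ≡ 1` modulo
`(r, T_ℓ - 1 - ℓ)` which maps `J₀(p)(ℚ)` into the torsion. -/
theorem exists_goodAlg_of_descCore (p : ℕ) [NeZero p] (S : Set ℕ) (r : ℕ) (hr : 0 < r)
    (hMW : AddGroup.FG ↥(FixedPoints.addSubgroup GalQ (JZero p)))
    (hcore : DescCoreAt p S r) :
    ∃ t : GoodAlg p S, (r : ℤ) ∣ eisChar p S t - 1 ∧
      ∀ z : JZero p, (∀ σ : GalQ, σ • z = z) → ∃ m : ℕ, 0 < m ∧ m • goodEval p S t z = 0 := by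
  classical
  letI modJ : Module (GoodAlg p S) (JZero p) := Module.compHom (JZero p) (goodEval p S)
  have hsmul : ∀ (t : GoodAlg p S) (x : JZero p), t • x = goodEval p S t x := fun _ _ => rfl
  -- the rational points, as a submodule
  let A : Submodule (GoodAlg p S) (JZero p) :=
    { carrier := {z | ∀ σ : GalQ, σ • z = z}
      zero_mem' := fun σ => smul_zero σ
      add_mem' := fun {a b} ha hb σ => by rw [smul_add, ha σ, hb σ]
      smul_mem' := fun t z hz σ => by
        rw [hsmul, ← goodEval_galois, hz σ] }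
  have hA : ∀ z : JZero p, z ∈ A ↔ ∀ σ : GalQ, σ • z = z := fun _ => Iff.rfl
  -- its torsion
  let Tors : Submodule (GoodAlg p S) A :=
    { carrier := {a | ∃ m : ℕ, 0 < m ∧ m • a = 0}
      zero_mem' := ⟨1, one_pos, smul_zero _⟩
      add_mem' := by
        rintro a b ⟨m, hm, hma⟩ ⟨n, hn, hnb⟩
        refine ⟨m * n, Nat.mul_pos hm hn, ?_⟩
        rw [smul_add, mul_comm m n, mul_smul, hma, smul_zero, mul_comm n m, mul_smul, hnb,
          smul_zero, add_zero]
      smul_mem' := by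
        rintro t a ⟨m, hm, hma⟩
        exact ⟨m, hm, by rw [smul_comm, hma, smul_zero]⟩ }
  have hTors : ∀ a : A, a ∈ Tors ↔ ∃ m : ℕ, 0 < m ∧ m • (a : JZero p) = 0 := by
    intro a
    constructor
    · rintro ⟨m, hm, hma⟩
      refine ⟨m, hm, ?_⟩
      have := congrArg (Subtype.val) hma
      simpa using this
    · rintro ⟨m, hm, hma⟩
      refine ⟨m, hm, ?_⟩
      apply Subtype.ext
      simpa using hma
  -- `M = A / Tors` is a finitely generated abelian group
  have hfin : Module.Finite ℤ (A ⧸ Tors) := by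
    rw [Module.Finite.iff_addGroup_fg]
    let f : ↥(FixedPoints.addSubgroup GalQ (JZero p)) →+ (A ⧸ Tors) :=
      { toFun := fun a => Submodule.Quotient.mk ⟨a.1, fun σ => a.2 σ⟩
        map_zero' := rfl
        map_add' := fun a b => rfl }
    have hf : Function.Surjective f := by
      intro x
      obtain ⟨a, rfl⟩ := Submodule.Quotient.mk_surjective Tors x
      exact ⟨⟨a.1, fun σ => a.2 σ⟩, rfl⟩
    haveI := hMW
    exact AddGroup.fg_of_surjective hf
  -- the ideal `𝔓 = (r, T_ℓ - 1 - ℓ)`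
  let gen : GoodPrime p S → GoodAlg p S := fun ℓ =>
    MvPolynomial.X ℓ - MvPolynomial.C (((1 + (ℓ.1 : ℕ) : ℕ) : ℤ))
  let P : Ideal (GoodAlg p S) := Ideal.span (insert (r : GoodAlg p S) (Set.range gen))
  have hrP : (r : GoodAlg p S) ∈ P := Ideal.subset_span (Set.mem_insert _ _)
  have hgenP : ∀ ℓ, gen ℓ ∈ P := fun ℓ =>
    Ideal.subset_span (Set.mem_insert_of_mem _ (Set.mem_range_self ℓ))
  have hgen : ∀ (ℓ : GoodPrime p S) (z : JZero p),
      goodEval p S (gen ℓ) z = heckeOperatorBar p ℓ.1 z - (1 + (ℓ.1 : ℕ) : ℕ) • z := by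
    intro ℓ z
    simp only [gen, map_sub, goodEval_X, goodEval_C, LinearMap.sub_apply,
      Module.End.intCast_apply]
    rw [natCast_zsmul]
  -- the socle hypothesis of ALG1 from the descent core
  have hsocle : ∀ x : A ⧸ Tors, (∀ s ∈ P, ∃ w : A ⧸ Tors, s • x = r • w) →
      ∃ w : A ⧸ Tors, x = r • w := by
    intro x hx
    obtain ⟨a, rfl⟩ := Submodule.Quotient.mk_surjective Tors x
    have hz := (hA a.1).1 a.2
    have key : CongModRTors p r (a : JZero p) 0 := by
      refine hcore a.1 hz fun ℓ hℓp hℓS => ?_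
      obtain ⟨w, hw⟩ := hx (gen ⟨ℓ, hℓp, hℓS⟩) (hgenP _)
      obtain ⟨b, rfl⟩ := Submodule.Quotient.mk_surjective Tors w
      have h1 : gen ⟨ℓ, hℓp, hℓS⟩ • a - r • b ∈ Tors := by
        rw [← Submodule.Quotient.mk_eq_zero, Submodule.Quotient.mk_sub,
          Submodule.Quotient.mk_smul, sub_eq_zero]
        rw [hw]
        rfl
      obtain ⟨m, hm, hmz⟩ := (hTors _).1 h1
      refine ⟨b.1, (hA b.1).1 b.2, m, hm, ?_⟩
      rw [← hmz]
      congr 1
      have : ((gen ⟨ℓ, hℓp, hℓS⟩ • a - r • b : A) : JZero p)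
          = goodEval p S (gen ⟨ℓ, hℓp, hℓS⟩) a.1 - r • b.1 := by
        simp [hsmul]
      rw [this, hgen]
    obtain ⟨w, hw, m, hm, hmz⟩ := key
    refine ⟨Submodule.Quotient.mk ⟨w, (hA w).2 hw⟩, ?_⟩
    have h2 : a - r • (⟨w, (hA w).2 hw⟩ : A) ∈ Tors := by
      rw [hTors]
      refine ⟨m, hm, ?_⟩
      rw [← hmz]
      congr 1
      simp
    rw [← Submodule.Quotient.mk_eq_zero, Submodule.Quotient.mk_sub, sub_eq_zero] at h2
    rw [h2]
    rfl
  obtain ⟨t, htP, htM⟩ := exists_sub_one_mem_smul_eq_zero_of_socle (M := A ⧸ Tors) P r hr hrP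
    hsocle
  refine ⟨t, ?_, fun z hz => ?_⟩
  · -- `ε(t) ≡ 1 mod r`
    have hle : P ≤ (Ideal.span {(r : ℤ)}).comap (eisChar p S) := by
      refine Ideal.span_le.2 ?_
      rintro s (rfl | ⟨ℓ, rfl⟩)
      · show eisChar p S (r : GoodAlg p S) ∈ Ideal.span {(r : ℤ)}
        rw [map_natCast]
        exact Ideal.subset_span rfl
      · show eisChar p S (gen ℓ) ∈ Ideal.span {(r : ℤ)}
        have : eisChar p S (gen ℓ) = 0 := by simp [gen, eisChar]
        rw [this]
        exact Ideal.zero_mem _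
    have := hle htP
    rw [Ideal.mem_comap, map_sub, map_one, Ideal.mem_span_singleton] at this
    exact this
  · -- `t` maps rational points to torsion
    have h3 := htM (Submodule.Quotient.mk ⟨z, (hA z).2 hz⟩)
    rw [← Submodule.Quotient.mk_smul, Submodule.Quotient.mk_eq_zero, hTors] at h3
    obtain ⟨m, hm, hmz⟩ := h3
    exact ⟨m, hm, by simpa [hsmul] using hmz⟩

/-- **DESC-ALG.**  The node `Core.DescentStatement p` from Mordell–Weil (frozen S17) and the
descent core at one Eisenstein prime. -/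
theorem descentStatement_of_descCore (p : ℕ) [NeZero p]
    (hMW : AddGroup.FG ↥(FixedPoints.addSubgroup GalQ (JZero p)))
    (hcore : ∀ S : Finset ℕ, ∃ r : ℕ, r.Prime ∧ r ∣ eisensteinNumerator p ∧
      DescCoreAt p (S : Set ℕ) r) :
    DescentStatement p := by
  intro S
  obtain ⟨r, hr, hrn, hc⟩ := hcore S
  obtain ⟨t, ht1, htM⟩ := exists_goodAlg_of_descCore p (S : Set ℕ) r hr.pos hMW hc
  refine ⟨r, goodEval p (S : Set ℕ) t, eisChar p (S : Set ℕ) t, hr, hrn, goodEval_mem p _ t,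
    fun c hc' => goodEval_eisenstein _ hc' t, ?_, htM⟩
  intro hdvd
  have h1 : (r : ℤ) ∣ 1 := by
    have := dvd_sub hdvd ht1
    simpa using this
  have h2 : (r : ℤ) = 1 ∨ (r : ℤ) = -1 := Int.isUnit_iff.1 (isUnit_of_dvd_one h1)
  rcases h2 with h2 | h2
  · exact hr.one_lt.ne' (by exact_mod_cast h2)
  · have : (0 : ℤ) ≤ r := Int.natCast_nonneg r
    omega

end Fermat.Agent.S15.H302

end
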