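import Mathlib
import Fermat.Agent.S15.TopWeak
import Fermat.Agent.S15.H302.DescAlg

/-!
# Row S15, piece DESC-ALG (helper302): `DescWeakStatement` from the descent core

`descWeakStatement_of_descCore` : the weak descent node `Fermat.Agent.S15.DescWeakStatement`
(consumed by `S15_of_weak`, row-lead helper975) follows from Mordell–Weil (frozen S17, as a
hypothesis) and the descent core `H302.DescCoreAt p S r` at ONE prime `r` dividing the order of
the given Eisenstein vector `c`.  No `sorry`.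
-/

set_option autoImplicit false

noncomputable section

namespace Fermat.Agent.S15.H302

open ModularCurve Fermat.Agent.S15

theorem isEisensteinClass_of_isEisensteinVector {p : ℕ} [NeZero p] {c : JZero p}
    (hc : IsEisensteinVector p c) : Core.IsEisensteinClass c := by
  intro ℓ hℓ
  rw [hc ℓ hℓ, natCast_zsmul]

theorem goodHeckeAlg_eq_heckeRingAway (p : ℕ) [NeZero p] (S : Finset ℕ) :
    Core.goodHeckeAlg p (S : Set ℕ) = heckeRingAway p S := by
  unfold Core.goodHeckeAlg Core.goodHecke heckeRingAway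
  congr 1
  ext T
  constructor
  · rintro ⟨ℓ, h1, h2, rfl⟩
    exact ⟨ℓ, by simpa using h2, h1, rfl⟩
  · rintro ⟨ℓ, h1, h2, rfl⟩
    exact ⟨ℓ, h2, by simpa using h1, rfl⟩

/-- **DESC-ALG, weak form.**  `DescWeakStatement` from Mordell–Weil and the descent core at one
prime `r ∣ addOrderOf c`. -/
theorem descWeakStatement_of_descCore
    (hMW : ∀ (p : ℕ) [NeZero p], p.Prime → 5 ≤ p →
      AddGroup.FG ↥(FixedPoints.addSubgroup GalQ (JZero p)))
    (hcore : ∀ (p : ℕ) [NeZero p], p.Prime → p ∉ ({2, 3, 5, 7, 13} : Finset ℕ) →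
      ∀ (S : Finset ℕ) (c : JZero p), (∀ σ : GalQ, σ • c = c) → c ≠ 0 →
        (∃ m : ℕ, 0 < m ∧ m • c = 0) → IsEisensteinVector p c →
        ∃ r : ℕ, r.Prime ∧ r ∣ addOrderOf c ∧ DescCoreAt p (S : Set ℕ) r) :
    DescWeakStatement := by
  intro p _ hp hp' S c hcfix hc0 hct hcE
  obtain ⟨r, hr, hrc, hD⟩ := hcore p hp hp' S c hcfix hc0 hct hcE
  have hp5 : 5 ≤ p := by
    have h2 := hp.two_le
    by_contra hlt
    push Not at hlt
    have : p = 2 ∨ p = 3 ∨ p = 4 := by omega
    rcases this with rfl | rfl | rfl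
    · exact hp' (by simp)
    · exact hp' (by simp)
    · exact absurd hp (by decide)
  obtain ⟨t, ht1, htM⟩ := exists_goodAlg_of_descCore p (S : Set ℕ) r hr.pos (hMW p hp hp5) hD
  refine ⟨goodEval p (S : Set ℕ) t, ?_, htM, ?_⟩
  · rw [← goodHeckeAlg_eq_heckeRingAway]
    exact goodEval_mem p _ t
  · -- `t c ≠ 0`
    have hE := isEisensteinClass_of_isEisensteinVector hcE
    rw [goodEval_eisenstein _ hE t]
    intro h0
    -- `addOrderOf c ∣ ε(t)`, hence `r ∣ ε(t)`, hence `r ∣ 1`
    have h1 : (addOrderOf c : ℤ) ∣ eisChar p (S : Set ℕ) t :=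
      (addOrderOf_dvd_iff_zsmul_eq_zero).2 h0
    have h2 : (r : ℤ) ∣ eisChar p (S : Set ℕ) t :=
      (Int.natCast_dvd_natCast.2 hrc).trans h1
    have h3 : (r : ℤ) ∣ 1 := by
      have := dvd_sub h2 ht1
      simpa using this
    have h4 : (r : ℤ) = 1 ∨ (r : ℤ) = -1 := Int.isUnit_iff.1 (isUnit_of_dvd_one h3)
    rcases h4 with h4 | h4
    · exact hr.one_lt.ne' (by exact_mod_cast h4)
    · have : (0 : ℤ) ≤ r := Int.natCast_nonneg r
      omega

end Fermat.Agent.S15.H302

end
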