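import Mathlib
import Fermat.Agent.S15.H2.FiniteSplit

/-!
# Row S15, node DESC, leaf ALG0 (helper302): the abstract algebra

`J` an abelian group with an action of a monoid `G` and of a commutative ring `T`, the two actions
commuting; `η i ∈ T` a family ("Eisenstein operators"); `r > 0`.  Put `A = J^G`,
`W_E = {w | r w = 0, every η i nilpotent on w}`, `Y_E = {y | r y ∈ A, σ y - y ∈ W_E}`.

`alg0_descCore_of_selBound`: if `J = r J`, `J[n]` is finite for all `n > 0`, the rational torsion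
has bounded exponent and `[Y_E : A + W_E] ≤ |W_E ∩ A|` (finite index), then every `z ∈ A` which is
killed by all `η i` modulo `r A + A_tors` lies in `r A + A_tors`.

Proof.  `X = J[r e']` (`e'` = exponent of the rational torsion) is a finite `T`-module; let `f` be
the splitting element of `S15.H2.exists_isSplit` at `𝔪 = (η i)`: `f ∈ 𝔪`, `1 - f` projects `X` onto
its `𝔪`-primary part.  `T_E := A_tors ∩ ker f`.  Then
`[Y_E : A + W_E] = [r Y_E : r A ∩ r Y_E] ≥ [T_E : r A ∩ T_E] = [T_E : r T_E] = |T_E[r]| = |W_E ∩ A|`,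
so equality holds and `r Y_E ≤ T_E + r A`.  For `z = r y`: `(1 - f) y ∈ Y_E`, so
`z - f z ∈ T_E + r A`, and `f z ∈ r A + A_tors` because `f ∈ (η i)`.
-/

set_option autoImplicit false

namespace Fermat.Agent.S15.H302

section Index

variable {J : Type*} [AddCommGroup J]

/-- For a finite subgroup `Tg` and a subgroup `R` with `R ∩ Tg = r Tg`:
`[Tg : R ∩ Tg] = |Tg[r]|`. -/
theorem alg0_relIndex_eq_card (Tg R K : AddSubgroup J) (r : ℕ) (hfin : Finite ↥Tg)
    (hR : ∀ t ∈ Tg, t ∈ R ↔ ∃ t' ∈ Tg, r • t' = t)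
    (hK : ∀ t, t ∈ K ↔ t ∈ Tg ∧ r • t = 0) :
    R.relIndex Tg = Nat.card ↥K := by
  classical
  let g : ↥Tg →+ ↥Tg := nsmulAddMonoidHom r
  have hg : ∀ t : ↥Tg, ((g t : ↥Tg) : J) = r • (t : J) := fun t => rfl
  have hrange : R.addSubgroupOf Tg = g.range := by
    ext t
    rw [AddSubgroup.mem_addSubgroupOf, AddMonoidHom.mem_range]
    constructor
    · intro h
      obtain ⟨t', ht', h'⟩ := (hR t.1 t.2).1 h
      exact ⟨⟨t', ht'⟩, Subtype.ext h'⟩
    · rintro ⟨t', rfl⟩
      exact (hR _ (g t').2).2 ⟨t'.1, t'.2, rfl⟩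
  have hker : Nat.card ↥g.ker = Nat.card ↥K := by
    refine Nat.card_congr
      { toFun := fun t => ⟨t.1.1, (hK _).2 ⟨t.1.2, ?_⟩⟩
        invFun := fun k => ⟨⟨k.1, ((hK _).1 k.2).1⟩, ?_⟩
        left_inv := fun t => rfl
        right_inv := fun k => rfl }
    · have := t.2
      rw [AddMonoidHom.mem_ker] at this
      have h2 := congrArg (Subtype.val) this
      simpa [hg] using h2
    · rw [AddMonoidHom.mem_ker]
      apply Subtype.ext
      rw [hg]
      exact ((hK _).1 k.2).2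
  rw [AddSubgroup.relIndex, hrange, AddSubgroup.index_range, hker]

/-- If `Tg ≤ M` and `[M : R ∩ M] ≤ [Tg : R ∩ Tg]` (finite), then `M ≤ Tg + R`. -/
theorem alg0_le_sup_of_relIndex_le (R Tg M : AddSubgroup J) (hTM : Tg ≤ M)
    (h0 : R.relIndex M ≠ 0) (hle : R.relIndex M ≤ R.relIndex Tg) : M ≤ Tg ⊔ R := by
  set N : AddSubgroup J := R ⊓ M with hN
  have hNM : N ≤ M := inf_le_right
  have h1 : N.relIndex M = R.relIndex M := AddSubgroup.inf_relIndex_right R M
  have h2 : N.relIndex (Tg ⊔ N) * (Tg ⊔ N).relIndex M = N.relIndex M :=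
    AddSubgroup.relIndex_mul_relIndex N (Tg ⊔ N) M le_sup_right (sup_le hTM hNM)
  have h3 : N.relIndex (Tg ⊔ N) = R.relIndex Tg := by
    rw [AddSubgroup.relIndex_sup_right]
    rw [← AddSubgroup.inf_relIndex_right N Tg, ← AddSubgroup.inf_relIndex_right R Tg]
    congr 1
    rw [hN, inf_assoc, inf_eq_right.2 hTM]
  rw [h3, h1] at h2
  have h4 : (Tg ⊔ N).relIndex M = 1 := by
    have hpos : 0 < R.relIndex Tg := by
      rcases Nat.eq_zero_or_pos (R.relIndex Tg) with h | h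
      · rw [h, zero_mul] at h2
        exact absurd h2.symm h0
      · exact h
    have h5 : R.relIndex Tg * (Tg ⊔ N).relIndex M ≤ R.relIndex Tg * 1 := by
      rw [h2, mul_one]
      exact hle
    have h6 : (Tg ⊔ N).relIndex M ≤ 1 := Nat.le_of_mul_le_mul_left h5 hpos
    have h7 : (Tg ⊔ N).relIndex M ≠ 0 := by
      intro h
      rw [h, mul_zero] at h2
      exact h0 h2.symm
    omega
  exact (AddSubgroup.relIndex_eq_one.1 h4).trans (sup_le_sup_left inf_le_left Tg)

end Index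

section Main

variable {J : Type*} [AddCommGroup J] {G : Type*} [Monoid G] [DistribMulAction G J]
  {T : Type*} [CommRing T] [Module T J]

/-- **ALG0, abstract form**: the descent core from the Selmer bound. -/
theorem alg0_descCore_of_selBound
    (hcomm : ∀ (t : T) (σ : G) (x : J), t • σ • x = σ • t • x)
    {ι : Type*} (η : ι → T) (r : ℕ) (hr : 0 < r)
    (hdiv : ∀ x : J, ∃ y : J, r • y = x)
    (hfin : ∀ n : ℕ, 0 < n → {x : J | n • x = 0}.Finite)
    (hrtf : ∃ e : ℕ, 0 < e ∧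
      ∀ t : J, (∀ σ : G, σ • t = t) → (∃ m : ℕ, 0 < m ∧ m • t = 0) → e • t = 0)
    (A WE YE : AddSubgroup J)
    (hA : ∀ x, x ∈ A ↔ ∀ σ : G, σ • x = x)
    (hWE : ∀ w, w ∈ WE ↔ r • w = 0 ∧ ∀ i, ∃ k : ℕ, η i ^ k • w = 0)
    (hYE : ∀ y, y ∈ YE ↔ (∀ σ : G, σ • (r • y) = r • y) ∧ ∀ σ : G, σ • y - y ∈ WE)
    (hsel : (A ⊔ WE).relIndex YE ≠ 0 ∧ (A ⊔ WE).relIndex YE ≤ Nat.card ↥(WE ⊓ A))
    (z : J) (hz : ∀ σ : G, σ • z = z)
    (hEis : ∀ i, ∃ w : J, (∀ σ : G, σ • w = w) ∧
      ∃ m : ℕ, 0 < m ∧ m • (η i • z - r • w) = 0) :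
    ∃ w : J, (∀ σ : G, σ • w = w) ∧ ∃ m : ℕ, 0 < m ∧ m • (z - r • w) = 0 := by
  classical
  obtain ⟨e', he', hrtf⟩ := hrtf
  set n := r * e' with hn
  have hnpos : 0 < n := Nat.mul_pos hr he'
  -- the finite `T`-module `X = J[n]`
  let X : Submodule T J :=
    { carrier := {x | n • x = 0}
      zero_mem' := smul_zero n
      add_mem' := fun {a b} ha hb => by
        show n • (a + b) = 0
        rw [smul_add, show n • a = 0 from ha, show n • b = 0 from hb, add_zero]
      smul_mem' := fun t x hx => by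
        show n • (t • x) = 0
        rw [smul_comm, show n • x = 0 from hx, smul_zero] }
  have hXfin : Finite ↥X := Set.finite_coe_iff.2 (hfin n hnpos)
  let 𝔪 : Ideal T := Ideal.span (Set.range η)
  obtain ⟨K, f, hsplit⟩ := Fermat.Agent.S15.H2.exists_isSplit 𝔪 ↥X
  have hfm : f ∈ 𝔪 := by
    have := hsplit.pow_mem 1
    simpa using this
  have hidem : ∀ x : J, n • x = 0 → f • f • x = f • x := fun x hx =>
    congrArg Subtype.val (hsplit.idem ⟨x, hx⟩)
  have hkill : ∀ t ∈ 𝔪 ^ K, ∀ x : J, n • x = 0 → t • (x - f • x) = 0 := fun t ht x hx =>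
    congrArg Subtype.val (hsplit.kill t ht ⟨x, hx⟩)
  -- (a) `x - f x` is Eisenstein
  have hEisOf : ∀ x : J, n • x = 0 → ∀ i, ∃ k : ℕ, η i ^ k • (x - f • x) = 0 := fun x hx i =>
    ⟨K, hkill _ (Ideal.pow_mem_pow (Ideal.subset_span (Set.mem_range_self i)) K) x hx⟩
  -- (b) `f` kills the Eisenstein elements of `X`
  have hfzero : ∀ x : J, n • x = 0 → (∀ i, ∃ k : ℕ, η i ^ k • x = 0) → f • x = 0 := by
    intro x hx h
    have hle : 𝔪 ≤ (Ideal.torsionOf T J x).radical := by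
      refine Ideal.span_le.2 ?_
      rintro _ ⟨i, rfl⟩
      obtain ⟨k, hk⟩ := h i
      exact ⟨k, (Ideal.mem_torsionOf_iff _ _).2 hk⟩
    obtain ⟨k, hk⟩ := hle hfm
    have hk' : f ^ k • x = 0 := (Ideal.mem_torsionOf_iff _ _).1 hk
    have h1 : f ^ (k + 1) • x = f • x :=
      congrArg Subtype.val (hsplit.pow_smul ⟨x, hx⟩ (k + 1) (by omega))
    rw [← h1, pow_succ', mul_smul, hk', smul_zero]
  -- (c) `T` preserves the rational points
  have hTA : ∀ (t : T) (a : J), (∀ σ : G, σ • a = a) → ∀ σ : G, σ • (t • a) = t • a :=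
    fun t a ha σ => by rw [← hcomm, ha σ]
  -- torsion facts
  have hW_X : ∀ w : J, r • w = 0 → n • w = 0 := fun w hw => by
    rw [hn, mul_comm, mul_smul, hw, smul_zero]
  have hdivX : ∀ y t : J, r • y = t → e' • t = 0 → n • y = 0 := fun y t hy ht => by
    rw [hn, mul_comm, mul_smul, hy, ht]
  -- `W ∋ w ↦ w - f w ∈ W_E`
  have hprojW : ∀ w : J, r • w = 0 → w - f • w ∈ WE := fun w hw => by
    rw [hWE]
    refine ⟨?_, hEisOf w (hW_X w hw)⟩
    rw [smul_sub, smul_comm r f w, hw, smul_zero, sub_zero]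
  -- `y ↦ y - f y` maps `{y | r y ∈ A}` into `Y_E`
  have hprojY : ∀ y : J, (∀ σ : G, σ • (r • y) = r • y) → y - f • y ∈ YE := fun y hy => by
    rw [hYE]
    refine ⟨fun σ => ?_, fun σ => ?_⟩
    · rw [smul_sub, smul_comm r f y, smul_sub, hy σ, hTA f _ hy σ]
    · have h1 : σ • (y - f • y) - (y - f • y) = (σ • y - y) - f • (σ • y - y) := by
        rw [smul_sub, smul_sub, hcomm]
        abel
      rw [h1]
      refine hprojW _ ?_
      rw [smul_sub, smul_comm r σ y, hy σ, sub_self]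
  -- the Eisenstein rational torsion
  let Tg : AddSubgroup J :=
    { carrier := {t | (∀ σ : G, σ • t = t) ∧ e' • t = 0 ∧ f • t = 0}
      zero_mem' := ⟨fun σ => smul_zero σ, smul_zero _, smul_zero _⟩
      add_mem' := by
        rintro a b ⟨ha, ha', ha''⟩ ⟨hb, hb', hb''⟩
        exact ⟨fun σ => by rw [smul_add, ha σ, hb σ], by rw [smul_add, ha', hb', add_zero],
          by rw [smul_add, ha'', hb'', add_zero]⟩
      neg_mem' := by
        rintro a ⟨ha, ha', ha''⟩
        exact ⟨fun σ => by rw [smul_neg, ha σ], by rw [smul_neg, ha', neg_zero],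
          by rw [smul_neg, ha'', neg_zero]⟩ }
  have hTg : ∀ t : J, t ∈ Tg ↔ (∀ σ : G, σ • t = t) ∧ e' • t = 0 ∧ f • t = 0 := fun _ => Iff.rfl
  have hTgfin : Finite ↥Tg :=
    Set.finite_coe_iff.2 ((hfin e' he').subset fun t ht => ht.2.1)
  let φ : J →+ J := nsmulAddMonoidHom r
  have hφ : ∀ x : J, φ x = r • x := fun _ => rfl
  set R : AddSubgroup J := A.map φ with hRdef
  have hRmem : ∀ x : J, x ∈ R ↔ ∃ a : J, (∀ σ : G, σ • a = a) ∧ r • a = x := by
    intro x
    rw [hRdef, AddSubgroup.mem_map]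
    constructor
    · rintro ⟨a, ha, rfl⟩
      exact ⟨a, (hA a).1 ha, rfl⟩
    · rintro ⟨a, ha, rfl⟩
      exact ⟨a, (hA a).2 ha, rfl⟩
  -- Part I: `[T_E : r A ∩ T_E] = |W_E ∩ A|`
  have hI : R.relIndex Tg = Nat.card ↥(WE ⊓ A) := by
    refine alg0_relIndex_eq_card Tg R (WE ⊓ A) r hTgfin ?_ ?_
    · intro t ht
      constructor
      · intro htR
        obtain ⟨a, ha, hat⟩ := (hRmem t).1 htR
        have hna : n • a = 0 := hdivX a t hat ht.2.1
        have hea : e' • a = 0 := hrtf a ha ⟨n, hnpos, hna⟩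
        refine ⟨a - f • a, ⟨fun σ => by rw [smul_sub, ha σ, hTA f a ha σ], ?_, ?_⟩, ?_⟩
        · rw [smul_sub, smul_comm e' f a, hea, smul_zero, sub_zero]
        · rw [smul_sub, hidem a hna, sub_self]
        · rw [smul_sub, smul_comm r f a, hat, ht.2.2, sub_zero]
      · rintro ⟨t', ht', rfl⟩
        exact (hRmem _).2 ⟨t', ht'.1, rfl⟩
    · intro w
      rw [AddSubgroup.mem_inf, hWE, hA, hTg]
      constructor
      · rintro ⟨⟨hw, hwE⟩, hwA⟩
        exact ⟨⟨hwA, hrtf w hwA ⟨r, hr, hw⟩, hfzero w (hW_X w hw) hwE⟩, hw⟩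
      · rintro ⟨⟨hwA, -, hfw⟩, hw⟩
        refine ⟨⟨hw, ?_⟩, hwA⟩
        have := hEisOf w (hW_X w hw)
        rwa [hfw, sub_zero] at this
  -- `A + W_E ≤ Y_E`
  have hAY : A ≤ YE := fun a ha => by
    rw [hYE]
    have ha' := (hA a).1 ha
    refine ⟨fun σ => by rw [smul_comm σ r a, ha' σ], fun σ => ?_⟩
    rw [ha' σ, sub_self]
    exact WE.zero_mem
  have hWY : WE ≤ YE := fun w hw => by
    rw [hYE]
    obtain ⟨hw1, hw2⟩ := (hWE w).1 hw
    refine ⟨fun σ => by rw [hw1, smul_zero], fun σ => ?_⟩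
    rw [hWE]
    refine ⟨by rw [smul_sub, smul_comm r σ w, hw1, smul_zero, sub_zero], fun i => ?_⟩
    obtain ⟨k, hk⟩ := hw2 i
    exact ⟨k, by rw [smul_sub, hcomm, hk, smul_zero, sub_zero]⟩
  -- (k1) `A + W_E = [r]⁻¹(r A) ∩ Y_E`
  have hk1 : A ⊔ WE = R.comap φ ⊓ YE := by
    apply le_antisymm
    · refine le_inf (sup_le ?_ ?_) (sup_le hAY hWY)
      · intro a ha
        rw [AddSubgroup.mem_comap, hφ]
        exact (hRmem _).2 ⟨a, (hA a).1 ha, rfl⟩
      · intro w hw
        rw [AddSubgroup.mem_comap, hφ, ((hWE w).1 hw).1]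
        exact R.zero_mem
    · intro y hy
      obtain ⟨hy1, hy2⟩ := AddSubgroup.mem_inf.1 hy
      rw [AddSubgroup.mem_comap, hφ] at hy1
      obtain ⟨a, ha, hay⟩ := (hRmem _).1 hy1
      have hy2' := ((hYE y).1 hy2).2
      set w := y - a with hw
      have hrw : r • w = 0 := by rw [hw, smul_sub, hay, sub_self]
      have hcoc : ∀ σ : G, σ • w - w = σ • y - y := fun σ => by
        rw [hw, smul_sub, ha σ]
        abel
      have hfw : ∀ σ : G, σ • (f • w) = f • w := by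
        intro σ
        have h1 : σ • w - w ∈ WE := by rw [hcoc σ]; exact hy2' σ
        obtain ⟨h2, h3⟩ := (hWE _).1 h1
        have h4 := hfzero _ (hW_X _ h2) h3
        rw [smul_sub, sub_eq_zero, hcomm] at h4
        exact h4
      have hsplit' : y = (a + f • w) + (w - f • w) := by
        rw [hw]
        abel
      rw [hsplit']
      exact AddSubgroup.add_mem _
        (AddSubgroup.mem_sup_left (A.add_mem ((hA a).2 ha) ((hA _).2 hfw)))
        (AddSubgroup.mem_sup_right (hprojW w hrw))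
  -- (k2) `T_E ≤ r Y_E`
  have hk2 : Tg ≤ YE.map φ := by
    intro t ht
    obtain ⟨y0, hy0⟩ := hdiv t
    rw [AddSubgroup.mem_map]
    refine ⟨y0 - f • y0, hprojY y0 (fun σ => by rw [hy0, ht.1 σ]), ?_⟩
    rw [hφ, smul_sub, smul_comm r f y0, hy0, ht.2.2, sub_zero]
  -- the count
  have hrel : (A ⊔ WE).relIndex YE = R.relIndex (YE.map φ) := by
    rw [← AddSubgroup.relIndex_comap, ← AddSubgroup.inf_relIndex_right (R.comap φ) YE, ← hk1]
  have hle : YE.map φ ≤ Tg ⊔ R := by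
    refine alg0_le_sup_of_relIndex_le R Tg (YE.map φ) hk2 ?_ ?_
    · rw [← hrel]
      exact hsel.1
    · rw [← hrel, hI]
      exact hsel.2
  -- the submodule `r A + A_tors`
  let C : Submodule T J :=
    { carrier := {x | ∃ w : J, (∀ σ : G, σ • w = w) ∧ ∃ m : ℕ, 0 < m ∧ m • (x - r • w) = 0}
      zero_mem' := ⟨0, fun σ => smul_zero σ, 1, one_pos, by simp⟩
      add_mem' := by
        rintro a b ⟨w, hw, m, hm, hma⟩ ⟨w', hw', m', hm', hmb⟩
        refine ⟨w + w', fun σ => by rw [smul_add, hw σ, hw' σ], m * m', Nat.mul_pos hm hm', ?_⟩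
        have h1 : a + b - r • (w + w') = (a - r • w) + (b - r • w') := by
          rw [smul_add]
          abel
        rw [h1, smul_add, mul_comm m m', mul_smul, hma, smul_zero, mul_comm m' m, mul_smul, hmb,
          smul_zero, add_zero]
      smul_mem' := by
        rintro t x ⟨w, hw, m, hm, hmx⟩
        refine ⟨t • w, hTA t w hw, m, hm, ?_⟩
        have h1 : t • x - r • t • w = t • (x - r • w) := by
          rw [smul_sub, smul_comm r t w]
        rw [h1, smul_comm m t, hmx, smul_zero] }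
  have hC : ∀ x : J, x ∈ C ↔
      ∃ w : J, (∀ σ : G, σ • w = w) ∧ ∃ m : ℕ, 0 < m ∧ m • (x - r • w) = 0 := fun _ => Iff.rfl
  -- `f z ∈ C`
  have hfz : f • z ∈ C := by
    have hle' : 𝔪 ≤ C.comap (LinearMap.toSpanSingleton T J z) := by
      refine Ideal.span_le.2 ?_
      rintro _ ⟨i, rfl⟩
      show (LinearMap.toSpanSingleton T J z) (η i) ∈ C
      rw [LinearMap.toSpanSingleton_apply]
      exact hEis i
    have := hle' hfm
    rw [Submodule.mem_comap, LinearMap.toSpanSingleton_apply] at this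
    exact this
  -- `z - f z ∈ T_E + r A ≤ C`
  obtain ⟨y, hy⟩ := hdiv z
  have hyE : y - f • y ∈ YE := hprojY y (fun σ => by rw [hy, hz σ])
  have h1 : z - f • z ∈ Tg ⊔ R := by
    refine hle ?_
    rw [AddSubgroup.mem_map]
    refine ⟨y - f • y, hyE, ?_⟩
    rw [hφ, smul_sub, smul_comm r f y, hy]
  obtain ⟨t, ht, x, hx, htx⟩ := AddSubgroup.mem_sup.1 h1
  obtain ⟨a, ha, hax⟩ := (hRmem x).1 hx
  have htC : t ∈ C := (hC t).2 ⟨0, fun σ => smul_zero σ, e', he', by
    rw [smul_zero, sub_zero]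
    exact ht.2.1⟩
  have hxC : x ∈ C := (hC x).2 ⟨a, ha, 1, one_pos, by rw [hax, sub_self, smul_zero]⟩
  have hzC : z ∈ C := by
    have h2 : z = (t + x) + f • z := by
      rw [htx]
      abel
    rw [h2]
    exact C.add_mem (C.add_mem htC hxC) hfz
  exact (hC z).1 hzC

end Main

end Fermat.Agent.S15.H302
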