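import Mathlib
import Fermat.Agent.S15.H975.DescSpec
import Fermat.Agent.S15.H302.DescAlg
import Fermat.Agent.S15.H302.Alg0Abs

/-!
# Row S15, node DESC, leaf ALG0 (helper302)

`alg0 : H975.Alg0Statement` — the descent core `DescCoreTarget p S r` (= `H302.DescCoreAt`)
from DIV, FINW, RTF and SEL-BOUND.  Instance of the abstract `alg0_descCore_of_selBound`
(`Alg0Abs.lean`) for `J = J₀(p)(ℚ̄)`, `G = Gal(ℚ̄/ℚ)`, `T = ℤ[X_ℓ : ℓ good]` acting through the
Hecke operators (`goodEval`), `η_ℓ = X_ℓ - (1 + ℓ)`.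

Also `descCoreTarget_iff` : `H975.DescCoreTarget p S r ↔ H302.DescCoreAt p S r`.
-/

set_option autoImplicit false

noncomputable section

namespace Fermat.Agent.S15.H302

open ModularCurve Fermat.Agent.S15.H975

/-- The target of the skeleton is `DescCoreAt`. -/
theorem descCoreTarget_iff (p : ℕ) [NeZero p] (S : Set ℕ) (r : ℕ) :
    DescCoreTarget p S r ↔ DescCoreAt p S r :=
  Iff.rfl

/-- the Eisenstein generator `X_ℓ - (1 + ℓ)` of the good polynomial ring -/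
def eisGen (p : ℕ) [NeZero p] (S : Set ℕ) (ℓ : GoodPrime p S) : GoodAlg p S :=
  MvPolynomial.X ℓ - MvPolynomial.C (((1 + (ℓ.1 : ℕ) : ℕ) : ℤ))

theorem goodEval_eisGen (p : ℕ) [NeZero p] (S : Set ℕ) (ℓ : GoodPrime p S) :
    goodEval p S (eisGen p S ℓ) = eta p ℓ.1 := by
  unfold eisGen eta
  rw [map_sub, goodEval_X, goodEval_C]
  congr 1

theorem eta_apply (p : ℕ) [NeZero p] (ℓ : Nat.Primes) (z : JZero p) :
    eta p ℓ z = heckeOperatorBar p ℓ z - (1 + (ℓ : ℕ) : ℕ) • z := by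
  unfold eta
  rw [LinearMap.sub_apply, LinearMap.smul_apply, Module.End.one_apply, natCast_zsmul]

/-- **ALG0.** -/
theorem alg0 : Alg0Statement := by
  intro p _ S r _ hr hdiv hfin hrtf hsel
  classical
  let modJ : Module (GoodAlg p S) (JZero p) := Module.compHom (JZero p) (goodEval p S)
  have hsmul : ∀ (t : GoodAlg p S) (x : JZero p), t • x = goodEval p S t x := fun _ _ => rfl
  have hpow : ∀ (ℓ : GoodPrime p S) (k : ℕ) (w : JZero p),
      eisGen p S ℓ ^ k • w = (eta p ℓ.1 ^ k) w := by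
    intro ℓ k w
    rw [hsmul, map_pow, goodEval_eisGen]
  intro z hz hE
  have key := alg0_descCore_of_selBound (J := JZero p) (G := Gal) (T := GoodAlg p S)
    (fun t σ x => goodEval_galois p S t σ x) (eisGen p S) r hr.pos hdiv
    (fun n hn => Set.finite_coe_iff.1 (hfin n hn)) hrtf
    (rat p) (eis p S r) (sel p r (eis p S r)) (fun _ => Iff.rfl)
    (by
      intro w
      constructor
      · rintro ⟨h1, h2⟩
        refine ⟨h1, fun ℓ => ?_⟩
        obtain ⟨k, hk⟩ := h2 ℓ.1 ℓ.2.1 ℓ.2.2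
        exact ⟨k, by rw [hpow, hk]⟩
      · rintro ⟨h1, h2⟩
        refine ⟨h1, fun ℓ hℓp hℓS => ?_⟩
        obtain ⟨k, hk⟩ := h2 ⟨ℓ, hℓp, hℓS⟩
        exact ⟨k, by rw [← hk, hpow]⟩)
    (fun _ => Iff.rfl) hsel z hz
    (by
      intro ℓ
      obtain ⟨w, hw, m, hm, hmz⟩ := hE ℓ.1 ℓ.2.1 ℓ.2.2
      refine ⟨w, hw, m, hm, ?_⟩
      rw [← hmz]
      congr 2
      rw [hsmul, goodEval_eisGen, eta_apply])
  obtain ⟨w, hw, m, hm, hmz⟩ := key
  exact ⟨w, hw, m, hm, by rw [sub_zero]; exact hmz⟩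

end Fermat.Agent.S15.H302

end
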