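import Mathlib

/-!
# S15 (helper302), piece D1: the devissage (in)equality for Selmer-type subspaces — linear algebra

Given an exact sequence of finite-dimensional vector spaces

  `0 → A' → A → A'' → B' → B → B''`

(think `H⁰(M') → H⁰(M) → H⁰(M'') → H¹(M') → H¹(M) → H¹(M'')`) and a subspace `S ≤ B`
(a Selmer group), with induced subspaces `S' = a⁻¹(S) ≤ B'` and `S'' = b(S) ≤ B''`, one has

  `dim S - dim A = (dim S' - dim A') + (dim S'' - dim A'')`.

This is Mazur's sub-additivity of `h¹ - h⁰` (*Modular curves and the Eisenstein ideal*, I.1.7),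
in the form used for the Eisenstein descent.
-/

set_option autoImplicit false

namespace Fermat.Agent.S15.H302

open Module

variable {k : Type*} [Field k]
variable {A' A A'' B' B B'' : Type*}
  [AddCommGroup A'] [Module k A'] [AddCommGroup A] [Module k A] [AddCommGroup A''] [Module k A'']
  [AddCommGroup B'] [Module k B'] [AddCommGroup B] [Module k B] [AddCommGroup B''] [Module k B'']

/-- `dim (range f) + dim (ker f) = dim (domain)`, as an equation in `ℕ`. -/
theorem finrank_range_add_finrank_ker' {V W : Type*} [AddCommGroup V] [Module k V]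
    [AddCommGroup W] [Module k W] [FiniteDimensional k V] (f : V →ₗ[k] W) :
    finrank k (LinearMap.range f) + finrank k (LinearMap.ker f) = finrank k V :=
  LinearMap.finrank_range_add_finrank_ker f

/-- **Six-term devissage equality.** -/
theorem sixTerm_finrank_eq
    [FiniteDimensional k A'] [FiniteDimensional k A] [FiniteDimensional k A'']
    [FiniteDimensional k B'] [FiniteDimensional k B]
    (i₀ : A' →ₗ[k] A) (p₀ : A →ₗ[k] A'') (δ : A'' →ₗ[k] B') (a : B' →ₗ[k] B) (b : B →ₗ[k] B'')
    (hi₀ : Function.Injective i₀)
    (hA : LinearMap.range i₀ = LinearMap.ker p₀)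
    (hA'' : LinearMap.range p₀ = LinearMap.ker δ)
    (hB' : LinearMap.range δ = LinearMap.ker a)
    (hB : LinearMap.range a = LinearMap.ker b)
    (S : Submodule k B) :
    finrank k S + finrank k A' + finrank k A'' =
      finrank k (S.comap a) + finrank k (S.map b) + finrank k A := by
  -- dimensions along `A' → A → A'' → B'`
  have h1 : finrank k (LinearMap.range i₀) = finrank k A' :=
    LinearMap.finrank_range_of_inj hi₀
  have h2 := finrank_range_add_finrank_ker' p₀
  have h3 := finrank_range_add_finrank_ker' δ
  rw [← hA, h1] at h2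
  rw [← hA''] at h3
  -- the restriction of `b` to `S`
  have h4 := finrank_range_add_finrank_ker' (b.domRestrict S)
  have h5 : finrank k (LinearMap.range (b.domRestrict S)) = finrank k (S.map b) := by
    rw [LinearMap.range_domRestrict]
  -- the restriction of `a` to `S.comap a`, with values in `S`
  let a' : S.comap a →ₗ[k] B := a.domRestrict (S.comap a)
  have h6 := finrank_range_add_finrank_ker' a'
  -- `ker (b|S) ≅ S ⊓ ker b = S ⊓ range a = range (a|S')`
  have h7 : finrank k (LinearMap.ker (b.domRestrict S)) = finrank k (LinearMap.range a') := by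
    have e1 : LinearMap.ker (b.domRestrict S) = (LinearMap.ker b).comap S.subtype := by
      ext x
      simp [LinearMap.domRestrict_apply]
    have e2 : LinearMap.range a' = S ⊓ LinearMap.ker b := by
      ext y
      simp only [a', LinearMap.range_domRestrict, Submodule.mem_map, Submodule.mem_comap,
        Submodule.mem_inf]
      constructor
      · rintro ⟨x, hx, rfl⟩
        exact ⟨hx, by rw [← hB]; exact LinearMap.mem_range_self a x⟩
      · rintro ⟨hy, hyb⟩
        rw [← hB] at hyb
        obtain ⟨x, rfl⟩ := hyb
        exact ⟨x, hy, rfl⟩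
    rw [e1, e2]
    -- `comap S.subtype (ker b) ≃ S ⊓ ker b`
    have e3 : ((LinearMap.ker b).comap S.subtype).map S.subtype = S ⊓ LinearMap.ker b := by
      rw [Submodule.map_comap_subtype]
    rw [← e3]
    exact (LinearEquiv.finrank_eq
      (Submodule.equivMapOfInjective S.subtype S.injective_subtype _))
  -- `ker (a|S') ≅ ker a = range δ` (because `ker a ≤ S.comap a`)
  have h8 : finrank k (LinearMap.ker a') = finrank k (LinearMap.range δ) := by
    have e1 : LinearMap.ker a' = (LinearMap.ker a).comap (S.comap a).subtype := by
      ext x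
      simp [a', LinearMap.domRestrict_apply]
    have hle : LinearMap.ker a ≤ S.comap a := by
      intro x hx
      rw [Submodule.mem_comap, LinearMap.mem_ker.mp hx]
      exact S.zero_mem
    have e3 : ((LinearMap.ker a).comap (S.comap a).subtype).map (S.comap a).subtype
        = LinearMap.ker a := by
      rw [Submodule.map_comap_subtype, inf_eq_right.mpr hle]
    rw [e1, hB']
    conv_rhs => rw [← e3]
    exact LinearEquiv.finrank_eq
      (Submodule.equivMapOfInjective (S.comap a).subtype (Submodule.injective_subtype _) _)
  omega

/-- **Six-term devissage inequality**: the same with any `S' ⊇ a⁻¹(S)`, `S'' ⊇ b(S)`. -/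
theorem sixTerm_finrank_le
    [FiniteDimensional k A'] [FiniteDimensional k A] [FiniteDimensional k A'']
    [FiniteDimensional k B'] [FiniteDimensional k B] [FiniteDimensional k B'']
    (i₀ : A' →ₗ[k] A) (p₀ : A →ₗ[k] A'') (δ : A'' →ₗ[k] B') (a : B' →ₗ[k] B) (b : B →ₗ[k] B'')
    (hi₀ : Function.Injective i₀)
    (hA : LinearMap.range i₀ = LinearMap.ker p₀)
    (hA'' : LinearMap.range p₀ = LinearMap.ker δ)
    (hB' : LinearMap.range δ = LinearMap.ker a)
    (hB : LinearMap.range a = LinearMap.ker b)
    (S : Submodule k B) (S' : Submodule k B') (S'' : Submodule k B'')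
    (hS' : S.comap a ≤ S') (hS'' : S.map b ≤ S'') :
    finrank k S + finrank k A' + finrank k A'' ≤
      finrank k S' + finrank k S'' + finrank k A := by
  have h := sixTerm_finrank_eq i₀ p₀ δ a b hi₀ hA hA'' hB' hB S
  have h1 := Submodule.finrank_mono hS'
  have h2 := Submodule.finrank_mono hS''
  omega

end Fermat.Agent.S15.H302
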